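/-
PROJECT C, slice C6 (reciprocity), file 1: elementary existence of auxiliary primes.

For an odd prime `p` and `k ≥ 1` we produce
* a prime `ℓ ≠ p` such that `p` has order exactly `p ^ k` in `(ZMod ℓ)ˣ`
  (`ℓ` divides the value `Φ_{p^k}(p)` of the cyclotomic polynomial), and
* a prime `q ∉ {p, ℓ}` with `q ≡ p (mod ℓ)` and `q ≡ 1 + p (mod p ^ 2)` (Dirichlet),
  so that `q` also has order `p ^ k` modulo `ℓ`, and `q` has order `p ^ n` modulo `p ^ (n + 1)`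
  for every `n`.

These are the only arithmetic inputs of the determination of the sign of the wild local symbol
in the cyclotomic `ℤ_p`-tower by a global argument.
We also prove the elementary growth of local degrees in the cyclotomic `ℤ_p`-tower:
for `q` prime to `p`, `q > 1`, the `p`-part of the order of `q` modulo `p ^ (k + 1)` is unbounded.
-/
import Mathlib

set_option autoImplicit false

namespace Fermat.Agent.CFT.Recip.AuxPrime

open Polynomial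

/-- The integer `Φ_{p^(n+1)}(p) = ∑_{i<p} (p^(p^n))^i`. -/
def cycloVal (p n : ℕ) : ℕ := ∑ i ∈ Finset.range p, (p ^ p ^ n) ^ i

theorem cycloVal_cast_self (p n : ℕ) (hp : p.Prime) : ((cycloVal p n : ℕ) : ZMod p) = 1 := by
  have h0 : ((p : ℕ) : ZMod p) ^ p ^ n = 0 := by
    rw [ZMod.natCast_self]
    exact zero_pow (pow_ne_zero _ hp.ne_zero)
  unfold cycloVal
  push_cast
  rw [h0]
  have hp1 : p ≠ 0 := hp.ne_zero
  clear h0 hp
  obtain ⟨m, rfl⟩ : ∃ m, p = m + 1 := ⟨p - 1, by omega⟩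
  rw [Finset.sum_range_succ']
  simp

theorem cycloVal_ne_one (p n : ℕ) (hp : p.Prime) : cycloVal p n ≠ 1 := by
  unfold cycloVal
  have hpos : 0 < p ^ p ^ n := pow_pos hp.pos _
  generalize p ^ p ^ n = x at hpos
  have h2 := hp.two_le
  clear hp
  obtain ⟨m, rfl⟩ : ∃ m, p = m + 2 := ⟨p - 2, by omega⟩
  rw [Finset.sum_range_succ', Finset.sum_range_succ']
  simp only [pow_zero]
  have : 0 < x ^ (0 + 1) := pow_pos hpos _
  omega

/-- For a prime `p` and `k ≥ 1` there is a prime `ℓ ≠ p` such that `p` has order exactly `p ^ k`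
modulo `ℓ` (in particular `ℓ ≡ 1 mod p ^ k`). -/
theorem exists_prime_orderOf_eq (p : ℕ) (hp : p.Prime) (k : ℕ) (hk : k ≠ 0) :
    ∃ ℓ : ℕ, ℓ.Prime ∧ ℓ ≠ p ∧ orderOf ((p : ℕ) : ZMod ℓ) = p ^ k := by
  obtain ⟨n, rfl⟩ := Nat.exists_eq_succ_of_ne_zero hk
  have hℓ : (cycloVal p n).minFac.Prime := Nat.minFac_prime (cycloVal_ne_one p n hp)
  have hℓN : (cycloVal p n).minFac ∣ cycloVal p n := Nat.minFac_dvd _
  generalize (cycloVal p n).minFac = ℓ at hℓ hℓN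
  have hℓp : ℓ ≠ p := by
    intro h
    rw [h] at hℓN
    have h1 := cycloVal_cast_self p n hp
    rw [(ZMod.natCast_eq_zero_iff _ _).2 hℓN] at h1
    have := Fact.mk hp
    exact zero_ne_one h1
  have := Fact.mk hℓ
  refine ⟨ℓ, hℓ, hℓp, ?_⟩
  have : NeZero (((p ^ (n + 1) : ℕ)) : ZMod ℓ) := by
    refine ⟨?_⟩
    rw [Ne, ZMod.natCast_eq_zero_iff]
    intro h
    exact hℓp ((Nat.prime_dvd_prime_iff_eq hℓ hp).1 (hℓ.dvd_of_dvd_pow h))
  have hroot : IsRoot (cyclotomic (p ^ (n + 1)) (ZMod ℓ)) ((p : ℕ) : ZMod ℓ) := by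
    rw [cyclotomic_prime_pow_eq_geom_sum hp, IsRoot.def, eval_finsetSum]
    have h0 := (ZMod.natCast_eq_zero_iff _ _).2 hℓN
    unfold cycloVal at h0
    push_cast at h0
    simpa using h0
  exact ((isRoot_cyclotomic_iff.1 hroot).eq_orderOf).symm

/-- `ℓ ≡ 1 mod p ^ k` for the prime of `exists_prime_orderOf_eq`. -/
theorem pow_dvd_pred_of_orderOf_eq {p ℓ k : ℕ} (hℓ : ℓ.Prime)
    (h : orderOf ((p : ℕ) : ZMod ℓ) = p ^ k) (hpℓ : ¬ ℓ ∣ p) : p ^ k ∣ ℓ - 1 := by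
  have := Fact.mk hℓ
  rw [← h]
  apply orderOf_dvd_of_pow_eq_one
  apply ZMod.pow_card_sub_one_eq_one
  rwa [Ne, ZMod.natCast_eq_zero_iff]

/-- The auxiliary primes: `ℓ` with `ord_ℓ(p) = p ^ k` and `q ≡ p (ℓ)`, `q ≡ 1 + p (p ^ 2)`. -/
theorem exists_aux_primes (p : ℕ) (hp : p.Prime) (k : ℕ) (hk : k ≠ 0) :
    ∃ ℓ q : ℕ, ℓ.Prime ∧ q.Prime ∧ ℓ ≠ p ∧ q ≠ p ∧ q ≠ ℓ ∧
      orderOf ((p : ℕ) : ZMod ℓ) = p ^ k ∧ ((q : ℕ) : ZMod ℓ) = ((p : ℕ) : ZMod ℓ) ∧
      ((q : ℕ) : ZMod (p ^ 2)) = 1 + p := by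
  obtain ⟨ℓ, hℓ, hℓp, hord⟩ := exists_prime_orderOf_eq p hp k hk
  have := Fact.mk hℓ
  have := Fact.mk hp
  have hcop : Nat.Coprime ℓ (p ^ 2) :=
    Nat.Coprime.pow_right _ ((Nat.coprime_primes hℓ hp).2 hℓp)
  have : NeZero (ℓ * p ^ 2) := ⟨mul_ne_zero hℓ.ne_zero (pow_ne_zero _ hp.ne_zero)⟩
  -- the residue class
  set e := ZMod.chineseRemainder hcop with he
  set a : ZMod (ℓ * p ^ 2) := e.symm (((p : ℕ) : ZMod ℓ), (1 + p : ZMod (p ^ 2))) with ha
  have hu1 : IsUnit (((p : ℕ) : ZMod ℓ)) := by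
    rw [ZMod.isUnit_iff_coprime]
    exact (Nat.coprime_primes hp hℓ).2 (Ne.symm hℓp)
  have hu2 : IsUnit ((1 + p : ZMod (p ^ 2))) := by
    rw [← Nat.cast_one (R := ZMod _), ← Nat.cast_add, ZMod.isUnit_iff_coprime]
    apply Nat.Coprime.pow_right
    simp
  have hau : IsUnit a := by
    have : IsUnit (((p : ℕ) : ZMod ℓ), (1 + p : ZMod (p ^ 2))) := Prod.isUnit_iff.2 ⟨hu1, hu2⟩
    exact this.map e.symm
  obtain ⟨q, -, hq, hqa⟩ := Nat.forall_exists_prime_gt_and_eq_mod hau 0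
  have hq' : e ((q : ℕ) : ZMod (ℓ * p ^ 2)) = (((p : ℕ) : ZMod ℓ), (1 + p : ZMod (p ^ 2))) := by
    rw [hqa, ha, RingEquiv.apply_symm_apply]
  rw [map_natCast] at hq'
  have hq1 : ((q : ℕ) : ZMod ℓ) = ((p : ℕ) : ZMod ℓ) := by
    have := congrArg Prod.fst hq'
    simp at this
    exact this
  have hq2 : ((q : ℕ) : ZMod (p ^ 2)) = 1 + p := by
    have := congrArg Prod.snd hq'
    simp at this
    exact this
  refine ⟨ℓ, q, hℓ, hq, hℓp, ?_, ?_, hord, hq1, hq2⟩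
  · -- q ≠ p
    rintro rfl
    have h1 : ((q : ℕ) : ZMod q) = 1 := by
      have := congrArg (ZMod.castHom (dvd_pow_self q two_ne_zero) (ZMod q)) hq2
      simpa using this
    rw [ZMod.natCast_self] at h1
    exact zero_ne_one h1
  · -- q ≠ ℓ
    rintro rfl
    rw [ZMod.natCast_self] at hq1
    exact hu1.ne_zero hq1.symm

/-- A natural number `≡ 1 + p mod p ^ 2` (`p` an odd prime) has order `p ^ n` modulo
`p ^ (n + 1)`: it generates the `p`-Sylow subgroup `1 + pℤ` of `(ℤ/p^(n+1))ˣ`. -/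
theorem orderOf_eq_of_cast_eq_one_add {p q : ℕ} (hp : p.Prime) (hp2 : p ≠ 2)
    (hq : ((q : ℕ) : ZMod (p ^ 2)) = 1 + p) (n : ℕ) :
    orderOf ((q : ℕ) : ZMod (p ^ (n + 1))) = p ^ n := by
  -- write `q = 1 + p * a` with `p ∤ a`
  have h1 : ((q : ℤ) : ZMod (p ^ 2)) = ((1 + p : ℤ) : ZMod (p ^ 2)) := by
    push_cast; exact_mod_cast hq
  rw [ZMod.intCast_eq_intCast_iff_dvd_sub] at h1
  obtain ⟨c, hc⟩ := h1
  -- (1 + p) - q = p^2 * c  ⇒  q = 1 + p * (1 - p * c)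
  have hqa : (q : ℤ) = 1 + p * (1 - p * c) := by
    have : ((p ^ 2 : ℕ) : ℤ) = (p : ℤ) ^ 2 := by push_cast; ring
    rw [this] at hc
    linear_combination -hc
  have hna : ¬ (p : ℤ) ∣ (1 - p * c) := by
    intro h
    have h2 : (p : ℤ) ∣ 1 := by
      have := dvd_add h (Dvd.intro c rfl : (p : ℤ) ∣ p * c)
      simpa using this
    have := Int.eq_one_of_dvd_one (Int.natCast_nonneg p) h2
    exact hp.ne_one (by exact_mod_cast this)
  have := ZMod.orderOf_one_add_mul_prime hp hp2 (1 - p * c) hna n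
  rw [← this]
  congr 1
  have : ((q : ℤ) : ZMod (p ^ (n + 1))) = ((1 + p * (1 - p * c) : ℤ) : ZMod (p ^ (n + 1))) := by
    rw [hqa]
  push_cast at this
  exact_mod_cast this

/-- Growth of local degrees in the cyclotomic `ℤ_p`-tower: for `q > 1` prime to `p`, the `p`-part
of the order of `q` in `(ℤ/p^(k+1))ˣ` is unbounded. -/
theorem exists_pow_dvd_orderOf (p : ℕ) (hp : p.Prime) (q : ℕ) (hq1 : 1 < q) (hpq : ¬ p ∣ q)
    (n : ℕ) : ∃ k : ℕ, p ^ n ∣ orderOf ((q : ℕ) : ZMod (p ^ (k + 1))) := by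
  have := Fact.mk hp
  set E : ℕ := p ^ n * (p - 1) with hE
  refine ⟨q ^ E, ?_⟩
  set k := q ^ E with hk
  set o := orderOf ((q : ℕ) : ZMod (p ^ (k + 1))) with ho
  have hcop : Nat.Coprime q (p ^ (k + 1)) :=
    Nat.Coprime.pow_right _ ((Nat.Prime.coprime_iff_not_dvd hp).2 hpq).symm
  -- `o ∣ p^k * (p-1)`
  have hdvd : o ∣ p ^ k * (p - 1) := by
    apply orderOf_dvd_of_pow_eq_one
    have := ZMod.pow_totient (n := p ^ (k + 1)) (x := ZMod.unitOfCoprime q hcop)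
    rw [Nat.totient_prime_pow_succ hp] at this
    have h2 := congrArg Units.val this
    simpa using h2
  have ho0 : o ≠ 0 := by
    intro h
    rw [h] at hdvd
    have := Nat.eq_zero_of_zero_dvd hdvd
    have h1 : 0 < p ^ k * (p - 1) :=
      Nat.mul_pos (pow_pos hp.pos _) (by have := hp.two_le; omega)
    omega
  -- `p^(k+1) ∣ q^o - 1`, hence `p^(k+1) < q^o`
  have hpow : ((q : ℕ) : ZMod (p ^ (k + 1))) ^ o = 1 := pow_orderOf_eq_one _
  have hlt : p ^ (k + 1) < q ^ o := by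
    have h1 : ((q ^ o : ℕ) : ZMod (p ^ (k + 1))) = ((1 : ℕ) : ZMod (p ^ (k + 1))) := by
      push_cast; exact hpow
    rw [ZMod.natCast_eq_natCast_iff] at h1
    have h2 : 1 < q ^ o := Nat.one_lt_pow ho0 hq1
    have h3 : p ^ (k + 1) ∣ q ^ o - 1 := (Nat.modEq_iff_dvd' h2.le).1 h1.symm
    have h4 := Nat.le_of_dvd (by omega) h3
    omega
  -- decompose `o = p^a * d`
  obtain ⟨a, d, hd, hod⟩ := Nat.exists_eq_pow_mul_and_not_dvd ho0 p hp.ne_one
  by_contra hcon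
  have han : a < n := by
    by_contra h
    push Not at h
    apply hcon
    rw [hod]
    exact Dvd.dvd.mul_right (pow_dvd_pow _ h) _
  have hd1 : d ∣ p - 1 := by
    have h1 : d ∣ p ^ k * (p - 1) := (Dvd.intro_left _ hod.symm).trans hdvd
    exact Nat.Coprime.dvd_of_dvd_mul_left
      (Nat.Coprime.pow_right _ ((Nat.Prime.coprime_iff_not_dvd hp).2 hd).symm) h1
  have hoE : o ≤ E := by
    rw [hod, hE]
    have hp1 : 0 < p - 1 := by have := hp.two_le; omega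
    exact Nat.mul_le_mul (Nat.pow_le_pow_right hp.pos han.le) (Nat.le_of_dvd hp1 hd1)
  have h5 : q ^ o ≤ q ^ E := Nat.pow_le_pow_right (by omega) hoE
  have h6 : k + 1 < p ^ (k + 1) := Nat.lt_pow_self hp.one_lt
  omega

end Fermat.Agent.CFT.Recip.AuxPrime
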